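import Fermat.Agent.BaseChangeFF.Tensor
import Fermat.Agent.Deuring.Unique

/-!
# Project AV (S26): abstract framework

`Plc K k κ`: a place of `k/K` with values in `κ` (including `K`-embeddings `k → κ`).
`SpFun K`: a functor on fields over `K` with places as morphisms.
`PtFun K`: such a functor with values in abelian groups (the points of an abelian variety).
`LB F`: a line bundle on `F`, given by cocycles.
-/

set_option autoImplicit false

universe u

noncomputable section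

namespace Fermat.Agent.AV

/-! ### Places -/

/-- A place of `k/K` with values in the field `κ`. -/
structure Plc (K k κ : Type u) [Field K] [Field k] [Field κ] [Algebra K k] [Algebra K κ] where
  /-- the valuation ring -/
  R : ValuationSubring k
  /-- the residue map -/
  π : R →+* κ
  mem : ∀ c : K, algebraMap K k c ∈ R
  map : ∀ c : K, π ⟨algebraMap K k c, mem c⟩ = algebraMap K κ c
  unit : ∀ a : R, π a ≠ 0 → IsUnit a

namespace Plc

variable {K k κ κ' : Type u} [Field K] [Field k] [Field κ] [Field κ'] [Algebra K k] [Algebra K κ]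
  [Algebra K κ']

/-- `a` has the value `b` at the place `p`. -/
def Val (p : Plc K k κ) (a : k) (b : κ) : Prop := ∃ h : a ∈ p.R, p.π ⟨a, h⟩ = b

theorem Val.mem {p : Plc K k κ} {a : k} {b : κ} (h : p.Val a b) : a ∈ p.R := h.1

theorem Val.unique {p : Plc K k κ} {a : k} {b b' : κ} (h : p.Val a b) (h' : p.Val a b') :
    b = b' := by
  obtain ⟨h1, rfl⟩ := h
  obtain ⟨h2, rfl⟩ := h'
  rfl

theorem exists_val (p : Plc K k κ) {a : k} (h : a ∈ p.R) : ∃ b, p.Val a b := ⟨_, h, rfl⟩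

theorem mem_iff {p : Plc K k κ} {a : k} : a ∈ p.R ↔ ∃ b, p.Val a b :=
  ⟨p.exists_val, fun ⟨_, h⟩ => h.mem⟩

theorem Val.add {p : Plc K k κ} {a a' : k} {b b' : κ} (h : p.Val a b) (h' : p.Val a' b') :
    p.Val (a + a') (b + b') := by
  obtain ⟨h1, rfl⟩ := h
  obtain ⟨h2, rfl⟩ := h'
  exact ⟨p.R.add_mem _ _ h1 h2, map_add p.π ⟨a, h1⟩ ⟨a', h2⟩⟩

theorem Val.neg {p : Plc K k κ} {a : k} {b : κ} (h : p.Val a b) : p.Val (-a) (-b) := by
  obtain ⟨h1, rfl⟩ := h
  exact ⟨p.R.neg_mem _ h1, map_neg p.π ⟨a, h1⟩⟩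

theorem Val.sub {p : Plc K k κ} {a a' : k} {b b' : κ} (h : p.Val a b) (h' : p.Val a' b') :
    p.Val (a - a') (b - b') := by
  rw [sub_eq_add_neg, sub_eq_add_neg]
  exact h.add h'.neg

theorem Val.mul {p : Plc K k κ} {a a' : k} {b b' : κ} (h : p.Val a b) (h' : p.Val a' b') :
    p.Val (a * a') (b * b') := by
  obtain ⟨h1, rfl⟩ := h
  obtain ⟨h2, rfl⟩ := h'
  exact ⟨p.R.mul_mem _ _ h1 h2, map_mul p.π ⟨a, h1⟩ ⟨a', h2⟩⟩

theorem val_algebraMap (p : Plc K k κ) (c : K) : p.Val (algebraMap K k c) (algebraMap K κ c) :=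
  ⟨p.mem c, p.map c⟩

theorem val_zero (p : Plc K k κ) : p.Val 0 0 := ⟨p.R.zero_mem, map_zero p.π⟩

theorem val_one (p : Plc K k κ) : p.Val 1 1 := ⟨p.R.one_mem, map_one p.π⟩

theorem Val.ne_zero {p : Plc K k κ} {a : k} {b : κ} (h : p.Val a b) (hb : b ≠ 0) : a ≠ 0 := by
  rintro rfl
  exact hb (h.unique p.val_zero)

theorem Val.inv {p : Plc K k κ} {a : k} {b : κ} (h : p.Val a b) (hb : b ≠ 0) :
    p.Val a⁻¹ b⁻¹ := by
  have ha := h.ne_zero hb
  obtain ⟨h1, rfl⟩ := h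
  obtain ⟨v, hv⟩ := p.unit ⟨a, h1⟩ hb
  have h2 : a * ((v⁻¹ : p.Rˣ) : p.R) = 1 := by
    have h3 : (v : p.R) * ((v⁻¹ : p.Rˣ) : p.R) = 1 := v.mul_inv
    rw [hv] at h3
    exact congrArg Subtype.val h3
  have h4 : a⁻¹ = ((v⁻¹ : p.Rˣ) : p.R) := (eq_inv_of_mul_eq_one_right h2).symm
  have h5 : a⁻¹ ∈ p.R := by rw [h4]; exact ((v⁻¹ : p.Rˣ) : p.R).2
  refine ⟨h5, (eq_inv_of_mul_eq_one_left ?_)⟩
  rw [← map_mul, ← map_one p.π]
  congr 1
  exact Subtype.ext (inv_mul_cancel₀ ha)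

theorem Val.div {p : Plc K k κ} {a a' : k} {b b' : κ} (h : p.Val a b) (h' : p.Val a' b')
    (hb : b' ≠ 0) : p.Val (a / a') (b / b') := by
  rw [div_eq_mul_inv, div_eq_mul_inv]
  exact h.mul (h'.inv hb)

theorem Val.pow {p : Plc K k κ} {a : k} {b : κ} (h : p.Val a b) (n : ℕ) :
    p.Val (a ^ n) (b ^ n) := by
  induction n with
  | zero => rw [pow_zero, pow_zero]; exact p.val_one
  | succ n ih => rw [pow_succ, pow_succ]; exact ih.mul h

/-- `a` is a unit at the place `p`. -/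
def IsU (p : Plc K k κ) (a : k) : Prop := ∃ b, b ≠ 0 ∧ p.Val a b

theorem IsU.ne_zero {p : Plc K k κ} {a : k} (h : p.IsU a) : a ≠ 0 := by
  obtain ⟨b, hb, h⟩ := h
  exact h.ne_zero hb

theorem IsU.mul {p : Plc K k κ} {a a' : k} (h : p.IsU a) (h' : p.IsU a') : p.IsU (a * a') := by
  obtain ⟨b, hb, h⟩ := h
  obtain ⟨b', hb', h'⟩ := h'
  exact ⟨_, mul_ne_zero hb hb', h.mul h'⟩

theorem IsU.inv {p : Plc K k κ} {a : k} (h : p.IsU a) : p.IsU a⁻¹ := by
  obtain ⟨b, hb, h⟩ := h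
  exact ⟨_, inv_ne_zero hb, h.inv hb⟩

/-- every element or its inverse has a value -/
theorem val_or_inv (p : Plc K k κ) (a : k) : (∃ b, p.Val a b) ∨ p.Val a⁻¹ 0 := by
  rcases p.R.mem_or_inv_mem a with h | h
  · exact Or.inl (p.exists_val h)
  · obtain ⟨b, hb⟩ := p.exists_val h
    rcases eq_or_ne b 0 with rfl | hb0
    · exact Or.inr hb
    · left
      have := hb.inv hb0
      rw [inv_inv] at this
      exact ⟨_, this⟩

/-- A place is determined by its values. -/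
theorem ext_val {p q : Plc K k κ} (h : ∀ a b, p.Val a b ↔ q.Val a b) : p = q := by
  have hR : p.R = q.R := by
    ext a
    rw [mem_iff, mem_iff]
    exact exists_congr (h a)
  obtain ⟨R, π, h1, h2, h3⟩ := p
  obtain ⟨R', π', h1', h2', h3'⟩ := q
  subst hR
  have hπ : π = π' := by
    ext a
    obtain ⟨_, h4⟩ := (h a (π a)).1 ⟨a.2, rfl⟩
    exact h4.symm
  subst hπ
  rfl

/-- A place is determined by one inclusion of values. -/
theorem ext_of_imp {p q : Plc K k κ} (h : ∀ a b, p.Val a b → q.Val a b) : p = q := by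
  refine ext_val fun a b => ⟨h a b, fun hab => ?_⟩
  rcases p.val_or_inv a with ⟨b', hb'⟩ | h0
  · have := (h a b' hb').unique hab
    rwa [this] at hb'
  · rcases eq_or_ne a 0 with rfl | ha
    · rw [hab.unique q.val_zero]
      exact p.val_zero
    · exfalso
      have h1 := (h _ _ h0).mul hab
      rw [inv_mul_cancel₀ ha, zero_mul] at h1
      exact one_ne_zero (q.val_one.unique h1)

/-- the place defined by an embedding -/
def ofEmb (σ : k →ₐ[K] κ) : Plc K k κ where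
  R := ⊤
  π := (σ : k →+* κ).comp (⊤ : ValuationSubring k).subtype
  mem _ := trivial
  map c := σ.commutes c
  unit a ha := by
    rw [isUnit_iff_exists_inv]
    have ha0 : (a : k) ≠ 0 := fun h => ha (by
      show σ (a : k) = 0
      rw [h, map_zero])
    exact ⟨⟨(a : k)⁻¹, trivial⟩, Subtype.ext (mul_inv_cancel₀ ha0)⟩

theorem ofEmb_val (σ : k →ₐ[K] κ) {a : k} {b : κ} : (ofEmb σ).Val a b ↔ σ a = b :=
  ⟨fun ⟨_, h⟩ => h, fun h => ⟨trivial, h⟩⟩

/-- the valuation ring of the composite -/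
def compR (p : Plc K k κ) (q : Plc K κ κ') : ValuationSubring k where
  carrier := {a | ∃ h : a ∈ p.R, p.π ⟨a, h⟩ ∈ q.R}
  mul_mem' := by
    rintro a a' ⟨h, h1⟩ ⟨h', h1'⟩
    refine ⟨p.R.mul_mem _ _ h h', ?_⟩
    have h2 : p.π ⟨a * a', p.R.mul_mem _ _ h h'⟩ = p.π ⟨a, h⟩ * p.π ⟨a', h'⟩ :=
      map_mul p.π ⟨a, h⟩ ⟨a', h'⟩
    rw [h2]
    exact q.R.mul_mem _ _ h1 h1'
  one_mem' := ⟨p.R.one_mem, by
    have h2 : p.π ⟨1, p.R.one_mem⟩ = 1 := map_one p.π
    rw [h2]
    exact q.R.one_mem⟩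
  add_mem' := by
    rintro a a' ⟨h, h1⟩ ⟨h', h1'⟩
    refine ⟨p.R.add_mem _ _ h h', ?_⟩
    have h2 : p.π ⟨a + a', p.R.add_mem _ _ h h'⟩ = p.π ⟨a, h⟩ + p.π ⟨a', h'⟩ :=
      map_add p.π ⟨a, h⟩ ⟨a', h'⟩
    rw [h2]
    exact q.R.add_mem _ _ h1 h1'
  zero_mem' := ⟨p.R.zero_mem, by
    have h2 : p.π ⟨0, p.R.zero_mem⟩ = 0 := map_zero p.π
    rw [h2]
    exact q.R.zero_mem⟩
  neg_mem' := by
    rintro a ⟨h, h1⟩
    refine ⟨p.R.neg_mem _ h, ?_⟩
    have h2 : p.π ⟨-a, p.R.neg_mem _ h⟩ = -p.π ⟨a, h⟩ := map_neg p.π ⟨a, h⟩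
    rw [h2]
    exact q.R.neg_mem _ h1
  mem_or_inv_mem' := by
    intro a
    rcases p.val_or_inv a with ⟨b, hb⟩ | ⟨h0, h0'⟩
    · rcases q.R.mem_or_inv_mem b with h1 | h1
      · obtain ⟨h2, rfl⟩ := hb
        exact Or.inl ⟨h2, h1⟩
      · rcases eq_or_ne b 0 with rfl | hb0
        · obtain ⟨h2, h3⟩ := hb
          refine Or.inl ⟨h2, ?_⟩
          rw [h3]
          exact q.R.zero_mem
        · obtain ⟨h2, h3⟩ := hb.inv hb0
          refine Or.inr ⟨h2, ?_⟩
          rw [h3]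
          exact h1
    · refine Or.inr ⟨h0, ?_⟩
      rw [h0']
      exact q.R.zero_mem

theorem mem_compR {p : Plc K k κ} {q : Plc K κ κ'} {a : k} :
    a ∈ compR p q ↔ ∃ h : a ∈ p.R, p.π ⟨a, h⟩ ∈ q.R := Iff.rfl

/-- the ring homomorphism of the composite -/
def compπ (p : Plc K k κ) (q : Plc K κ κ') : compR p q →+* κ' where
  toFun a := q.π ⟨p.π ⟨a, a.2.choose⟩, a.2.choose_spec⟩
  map_one' := by
    rw [← map_one q.π]
    congr 1
    exact Subtype.ext (map_one p.π)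
  map_mul' a b := by
    rw [← map_mul q.π]
    congr 1
    exact Subtype.ext (map_mul p.π ⟨a, a.2.choose⟩ ⟨b, b.2.choose⟩)
  map_zero' := by
    rw [← map_zero q.π]
    congr 1
    exact Subtype.ext (map_zero p.π)
  map_add' a b := by
    rw [← map_add q.π]
    congr 1
    exact Subtype.ext (map_add p.π ⟨a, a.2.choose⟩ ⟨b, b.2.choose⟩)

/-- composition of places -/
def comp (p : Plc K k κ) (q : Plc K κ κ') : Plc K k κ' where
  R := compR p q
  π := compπ p q
  mem c := ⟨p.mem c, by rw [p.map]; exact q.mem c⟩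
  map c := by
    rw [← q.map c]
    show q.π _ = q.π _
    congr 1
    exact Subtype.ext (p.map c)
  unit a ha := by
    obtain ⟨h, h1⟩ := a.2
    have h2 : p.π ⟨a, h⟩ ≠ 0 := by
      intro h0
      apply ha
      rw [← map_zero q.π]
      show q.π _ = q.π _
      congr 1
      exact Subtype.ext h0
    have hv : p.Val (a : k) (p.π ⟨a, h⟩) := ⟨h, rfl⟩
    have hw : q.Val (p.π ⟨a, h⟩) (compπ p q a) := ⟨h1, rfl⟩
    have ha0 := hv.ne_zero h2
    obtain ⟨h3, h4⟩ := hv.inv h2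
    obtain ⟨h5, h6⟩ := hw.inv ha
    have h7 : (a : k)⁻¹ ∈ compR p q := ⟨h3, by rw [h4]; exact h5⟩
    rw [isUnit_iff_exists_inv]
    exact ⟨⟨_, h7⟩, Subtype.ext (mul_inv_cancel₀ ha0)⟩

theorem comp_val {p : Plc K k κ} {q : Plc K κ κ'} {a : k} {c : κ'} :
    (p.comp q).Val a c ↔ ∃ b, p.Val a b ∧ q.Val b c := by
  constructor
  · rintro ⟨⟨h, h1⟩, rfl⟩
    exact ⟨_, ⟨h, rfl⟩, h1, rfl⟩
  · rintro ⟨b, ⟨h, rfl⟩, h1, rfl⟩
    exact ⟨⟨h, h1⟩, rfl⟩

end Plc

/-! ### Functors -/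

/-- A functor on the fields over `K`, with places as morphisms. -/
structure SpFun (K : Type u) [Field K] where
  /-- the values -/
  T : ∀ (k : Type u) [Field k] [Algebra K k], Type u
  /-- specialization -/
  sp : ∀ {k κ : Type u} [Field k] [Algebra K k] [Field κ] [Algebra K κ], Plc K k κ → T k → T κ
  sp_id : ∀ {k : Type u} [Field k] [Algebra K k] (x : T k),
    sp (Plc.ofEmb (AlgHom.id K k)) x = x
  sp_comp : ∀ {k κ κ' : Type u} [Field k] [Algebra K k] [Field κ] [Algebra K κ] [Field κ']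
    [Algebra K κ'] (p : Plc K k κ) (q : Plc K κ κ') (x : T k), sp (p.comp q) x = sp q (sp p x)

/-- A functor with values in abelian groups: the points of an abelian variety. -/
structure PtFun (K : Type u) [Field K] extends SpFun K where
  grp : ∀ (k : Type u) [Field k] [Algebra K k], AddCommGroup (T k)
  sp_add : ∀ {k κ : Type u} [Field k] [Algebra K k] [Field κ] [Algebra K κ] (p : Plc K k κ)
    (x y : T k), sp p (x + y) = sp p x + sp p y

instance {K : Type u} [Field K] (P : PtFun K) (k : Type u) [Field k] [Algebra K k] :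
    AddCommGroup (P.T k) := P.grp k

namespace PtFun

variable {K : Type u} [Field K] (P : PtFun K) {k κ : Type u} [Field k] [Algebra K k] [Field κ]
  [Algebra K κ]

/-- specialization as a homomorphism -/
def spHom (p : Plc K k κ) : P.T k →+ P.T κ := AddMonoidHom.mk' (P.sp p) (P.sp_add p)

theorem spHom_apply (p : Plc K k κ) (x : P.T k) : P.spHom p x = P.sp p x := rfl

theorem sp_zero (p : Plc K k κ) : P.sp p 0 = 0 := map_zero (P.spHom p)

theorem sp_neg (p : Plc K k κ) (x : P.T k) : P.sp p (-x) = -P.sp p x := map_neg (P.spHom p) x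

theorem sp_nsmul (p : Plc K k κ) (n : ℕ) (x : P.T k) : P.sp p (n • x) = n • P.sp p x :=
  map_nsmul (P.spHom p) n x

end PtFun

/-- a natural transformation -/
structure SpHom {K : Type u} [Field K] (F G : SpFun K) where
  toFun : ∀ {k : Type u} [Field k] [Algebra K k], F.T k → G.T k
  nat : ∀ {k κ : Type u} [Field k] [Algebra K k] [Field κ] [Algebra K κ] (p : Plc K k κ)
    (x : F.T k), toFun (F.sp p x) = G.sp p (toFun x)

/-! ### Line bundles -/

/-- **A line bundle on `F`**: finitely many local generators `e i` (`i ∈ I x`) at every point `x`,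
with `e j = c x i j • e i`. -/
structure LB {K : Type u} [Field K] (F : SpFun K) where
  ι : Type u
  fin : Finite ι
  I : ∀ {k : Type u} [Field k] [Algebra K k], F.T k → Set ι
  I_ne : ∀ {k : Type u} [Field k] [Algebra K k] (x : F.T k), (I x).Nonempty
  c : ∀ {k : Type u} [Field k] [Algebra K k], F.T k → ι → ι → k
  c_ne : ∀ {k : Type u} [Field k] [Algebra K k] (x : F.T k) {i j : ι}, i ∈ I x → j ∈ I x →
    c x i j ≠ 0
  c_mul : ∀ {k : Type u} [Field k] [Algebra K k] (x : F.T k) {i j l : ι}, i ∈ I x → j ∈ I x →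
    l ∈ I x → c x i j * c x j l = c x i l
  I_sp : ∀ {k κ : Type u} [Field k] [Algebra K k] [Field κ] [Algebra K κ] (p : Plc K k κ)
    (x : F.T k), I (F.sp p x) ⊆ I x
  c_sp : ∀ {k κ : Type u} [Field k] [Algebra K k] [Field κ] [Algebra K κ] (p : Plc K k κ)
    (x : F.T k) {i j : ι}, i ∈ I (F.sp p x) → j ∈ I (F.sp p x) →
    p.Val (c x i j) (c (F.sp p x) i j)

namespace LB

variable {K : Type u} [Field K] {F G : SpFun K} (M N : LB F)

instance : Finite M.ι := M.fin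

section

variable {k κ : Type u} [Field k] [Algebra K k] [Field κ] [Algebra K κ]

theorem c_self (x : F.T k) {i : M.ι} (hi : i ∈ M.I x) : M.c x i i = 1 := by
  have h := M.c_mul x hi hi hi
  exact mul_right_cancel₀ (M.c_ne x hi hi) (by rw [h, one_mul])

theorem c_inv (x : F.T k) {i j : M.ι} (hi : i ∈ M.I x) (hj : j ∈ M.I x) :
    (M.c x i j)⁻¹ = M.c x j i := by
  apply inv_eq_of_mul_eq_one_right
  rw [M.c_mul x hi hj hi, M.c_self x hi]

/-- the transition functions are units at the places where both generators are defined -/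
theorem c_isU (p : Plc K k κ) (x : F.T k) {i j : M.ι} (hi : i ∈ M.I (F.sp p x))
    (hj : j ∈ M.I (F.sp p x)) : p.IsU (M.c x i j) :=
  ⟨_, M.c_ne _ hi hj, M.c_sp p x hi hj⟩

/-- A section at `x`: `s i • e i` does not depend on `i`. -/
structure Sec (x : F.T k) where
  s : M.ι → k
  eq : ∀ i j, i ∈ M.I x → j ∈ M.I x → s i = M.c x i j * s j

/-- nonzero section -/
def Sec.Nz {M : LB F} {x : F.T k} (σ : M.Sec x) : Prop := ∀ i, i ∈ M.I x → σ.s i ≠ 0

/-- The section `σ` is a generator at the place `p`. -/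
def Sec.UnitAt {M : LB F} {x : F.T k} (σ : M.Sec x) (p : Plc K k κ) : Prop :=
  ∀ i, i ∈ M.I (F.sp p x) → p.IsU (σ.s i)

/-- The section `τ` is the value of the section `σ` at the place `p`. -/
def Sec.ValAt {M : LB F} {x : F.T k} (σ : M.Sec x) (p : Plc K k κ) (τ : M.Sec (F.sp p x)) :
    Prop := ∀ i, i ∈ M.I (F.sp p x) → p.Val (σ.s i) (τ.s i)

end

/-- **Triviality in `Picv`**: there is a section which is a generator at all places. -/
def Triv {k : Type u} [Field k] [Algebra K k] (x : F.T k) : Prop :=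
  ∃ σ : M.Sec x, ∀ (κ : Type u) [Field κ] [Algebra K κ] (p : Plc K k κ), σ.UnitAt p

/-- tensor product -/
def mul : LB F where
  ι := M.ι × N.ι
  fin := inferInstance
  I x := {i | i.1 ∈ M.I x ∧ i.2 ∈ N.I x}
  I_ne x := by
    obtain ⟨i, hi⟩ := M.I_ne x
    obtain ⟨j, hj⟩ := N.I_ne x
    exact ⟨(i, j), hi, hj⟩
  c x i j := M.c x i.1 j.1 * N.c x i.2 j.2
  c_ne x _ _ hi hj := mul_ne_zero (M.c_ne x hi.1 hj.1) (N.c_ne x hi.2 hj.2)
  c_mul x _ _ _ hi hj hl := by
    rw [← M.c_mul x hi.1 hj.1 hl.1, ← N.c_mul x hi.2 hj.2 hl.2]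
    ring
  I_sp p x _ hi := ⟨M.I_sp p x hi.1, N.I_sp p x hi.2⟩
  c_sp p x _ _ hi hj := (M.c_sp p x hi.1 hj.1).mul (N.c_sp p x hi.2 hj.2)

/-- the dual -/
def inv : LB F where
  ι := M.ι
  fin := inferInstance
  I x := M.I x
  I_ne x := M.I_ne x
  c x i j := (M.c x i j)⁻¹
  c_ne x _ _ hi hj := inv_ne_zero (M.c_ne x hi hj)
  c_mul x _ _ _ hi hj hl := by rw [← M.c_mul x hi hj hl, mul_inv]
  I_sp p x _ hi := M.I_sp p x hi
  c_sp p x _ _ hi hj := (M.c_sp p x hi hj).inv (M.c_ne _ hi hj)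

/-- pull-back -/
def pull (M : LB G) (f : SpHom F G) : LB F where
  ι := M.ι
  fin := inferInstance
  I x := M.I (f.toFun x)
  I_ne x := M.I_ne _
  c x i j := M.c (f.toFun x) i j
  c_ne x _ _ hi hj := M.c_ne _ hi hj
  c_mul x _ _ _ hi hj hl := M.c_mul _ hi hj hl
  I_sp p x _ hi := by
    rw [f.nat] at hi
    exact M.I_sp p _ hi
  c_sp p x _ _ hi hj := by
    rw [f.nat] at hi hj ⊢
    exact M.c_sp p _ hi hj

end LB

end Fermat.Agent.AV

end
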